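import Mathlib
import Fermat.Agent.LT.H556.A0
import Fermat.Agent.LT.T1.Spec
import Fermat.Agent.LT.T2.Spec
import Fermat.Agent.LT.T2.H386.GPSSpec

/-!
# Row LT, tower T2, leaf T2.03c = `LeafLocalL2` (owner helper767): THE CUT

OFF-MAIN.  Definitions, two frozen sub-leaf Props and the PROVED top.  Nothing assumed.
Typed against `LT/H556/A0.lean` (66d3374a), `LT/T1/Spec.lean` (e8ae48d6), `LT/T2/Spec.lean` v3
(b934629a), `LT/T2/H386/GPSSpec.lean` (fb5aa9e8), byte-identical copies.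

## The route

`∫_Ω |ψ(x h)| dμ(h) ≤ μ(Ω)^{1/2} (∫_{xΩ} |ψ|²)^{1/2}` (Cauchy--Schwarz, left invariance), and
`∫_{xΩ} |ψ|² ≤ #Q₀ · (multiplicity) · ∫_D |ψ|²`:

* NO tiling of `G` by the translates of the slab is used (no real scalar has to be constructed):
  after a rational positive scalar at one infinite place (`ψ` and the height do not change) `x`
  lies in the open slab; the values of `‖det‖` on `xΩ` lie in a fixed compact interval, so a FINITE
  set `Q₀` of rational scalars `z_q` moves every point of `xΩ` into the slab; on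
  `A_q = {g ∈ xΩ : g z_q ∈ slab}` the translates `P_γ = {g : γ g z_q ∈ D}` cover (`Frame.strict`),
  `∫_{A_q ∩ P_γ} |ψ|² = ∫_{D ∩ γ A_q z_q} |ψ|²` (`μ` is left and right invariant, `ψ` is invariant)
  and `∑_γ 1_{γ A_q z_q}(h) = #{γ : γ⁻¹ h z_q⁻¹ ∈ xΩ} ≤ #(GL₂(K) ∩ x (Ω Ω⁻¹) x⁻¹)`.
* THE COUNT `CountC`: `#(GL₂(K) ∩ x C x⁻¹) ≤ B · H(x)` on `{H ≥ c}`, for every compact `C`.

## The cut

* `LeafCount K : T1Out K → CountC K`  (number theory: reduction theory + lattice points).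
* `LeafInt K : T1Out K → CountC K → ∀ 𝔫 ≠ ⊥, LocalL2 K 𝔫`  (measure theory).  OWNER helper767.
* PROVED `leafLocalL2_of_leaves : LeafCount K → LeafInt K → H386.LeafLocalL2 K`.
-/

set_option autoImplicit false

open IsDedekindDomain NumberField MeasureTheory
open Fermat.Agent.LT.H556.A0

noncomputable section

namespace Fermat.Agent.LT.T2.H767

open Fermat.Agent.LT.T2

variable (K : Type) [Field K] [NumberField K]

/-- **THE COUNT.**  For a compact set `C ⊆ GL₂(𝔸_K)` the number of `δ ∈ GL₂(K)` with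
`δ ∈ x C x⁻¹` (written `δ x = x ω`, `ω ∈ C`) is `≤ B · H(x)` on `{H ≥ c}`.

Proof.  `T1.SiegelCompactC` (with `c = 1`): `x = β z a ω₀`, `β ∈ B(K)`, `z` central,
`a = diag(s, 1)` at the infinite places and `1` at the finite places, `ω₀ ∈ Ω₀` compact,
`m t ≤ s^n ≤ M t`.  Then `δ' = β⁻¹ δ β ∈ GL₂(K)` has `a⁻¹ δ' a ∈ C₁ = Ω₀ C Ω₀⁻¹` (compact), and
`a⁻¹ [[p, q], [r, u]] a = [[p, q/σ], [σ r, u]]`, `σ` = the idele `s` at the infinite places, `1` at
the finite places.  The entries of the elements of `C₁` lie in a compact set `E ⊆ 𝔸_K`,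
`E ⊆ {‖y_w‖ ≤ R, d y_v ∈ 𝒪_v}`.  So `p, u ∈ K ∩ E` (finite: `T1.AdeleLatticeC`),
`r ∈ K`, `d r ∈ 𝓞 K`, `|r|_w ≤ R / s ≤ R / s₀` (finitely many, `s₀ = (m c)^{1/n}`), and
`q ∈ K`, `d q ∈ 𝓞 K`, `|q|_w ≤ R s`: at most `C₂ s^n ≤ C₂ M t` points (packing of the translates
of a bounded fundamental domain of `𝓞 K` in `K_∞`, Mathlib `ZSpan.fundamentalDomain`,
`Measure.addHaar_closedBall`). -/
def CountC : Prop :=
  ∀ C : Set (G K), IsCompact C →
    ∃ B c : ℝ, 0 < c ∧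
      ∀ (x : G K) (t : ℝ), T1.HasHeight K x t → c ≤ t →
        ∀ T : Finset (GL (Fin 2) K),
          (∀ δ ∈ T, ∃ ω ∈ C, T1.ratG K δ * x = x * ω) → (T.card : ℝ) ≤ B * t

/-- **T2.03c.1** THE COUNT from T1.  (≈ 1.2k lines.) -/
def LeafCount : Prop := T1.T1Out K → CountC K

/-- **T2.03c.2** INTEGRATION: the count gives the local `L²` bound.  (≈ 0.8k lines; owner
helper767.) -/
def LeafInt : Prop :=
  T1.T1Out K → CountC K → ∀ 𝔫 : Ideal (𝓞 K), 𝔫 ≠ ⊥ → H386.LocalL2 K 𝔫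

variable {K}

/-- THE TOP of T2.03c. -/
theorem leafLocalL2_of_leaves (h1 : LeafCount K) (h2 : LeafInt K) : H386.LeafLocalL2 K :=
  fun hT 𝔫 h𝔫 => h2 hT (h1 hT) 𝔫 h𝔫

end Fermat.Agent.LT.T2.H767

end
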