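import Mathlib
import Fermat.Agent.LT.T2.H245.Leaf01
import Fermat.Agent.LT.T2.H767.LocalL2Spec

/-!
# Row LT, tower T2, sub-leaf T2.03c.2 (helper767): tools for the integration step

OFF-MAIN.  Rational scalars at one infinite place (assets of helper245): centrality, module of the
determinant; a finite set of rational scalars which moves a compact interval of modules into the
open slab; counting lemma for sums of indicators.
-/

set_option autoImplicit false
set_option linter.unusedSectionVars false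

open IsDedekindDomain NumberField MeasureTheory
open Fermat.Agent.LT.H556.A0
open Fermat.Agent.LT

noncomputable section

namespace Fermat.Agent.LT.T2.H767

open Fermat.Agent.LT.T2 Fermat.Agent.LT.T2.H245

variable {K : Type} [Field K] [NumberField K]

/-- The rational scalars of helper245 are central. -/
theorem zScalar_comm767 (w : InfinitePlace K) (r : ℚ) (hr : r ≠ 0) (g : G K) :
    g * zScalar245 w r hr = zScalar245 w r hr * g := by
  apply Units.ext
  rw [Units.val_mul, Units.val_mul, zScalar245_val]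
  have h := Matrix.scalar_commute (n := Fin 2) (cAdele245 w r) (fun r' => Commute.all _ r')
    (g : Matrix (Fin 2) (Fin 2) (Adl K))
  exact h.eq.symm

theorem isCentral_zScalar767 (w : InfinitePlace K) (r : ℚ) (hr : r ≠ 0) :
    T1.IsCentral K (zScalar245 w r hr) :=
  ⟨cAdele245 w r, zScalar245_val w r hr⟩

/-- The inverse of a rational scalar is the rational scalar of the inverse. -/
theorem zScalar_inv767 (w : InfinitePlace K) (r : ℚ) (hr : r ≠ 0) :
    (zScalar245 w r hr)⁻¹ = zScalar245 w r⁻¹ (inv_ne_zero hr) := by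
  apply Units.ext
  rfl

theorem detNorm_mul_zScalar767 (hN : T1.AdNormC K) (w : InfinitePlace K) (r : ℚ) (hr : 0 < r)
    (g : G K) :
    detNorm245 (g * zScalar245 w r hr.ne') = detNorm245 g * (r : ℝ) ^ (w.mult * 2) := by
  have hrr : |(r : ℝ)| = (r : ℝ) := abs_of_pos (by exact_mod_cast hr)
  rw [detNorm245_mul hN, detNorm245_zScalar hN, hrr, ← pow_mul]

/-- A finite set of positive rationals whose `k`-th powers move every `N ∈ [m, M]` into `(1, 2)`. -/
theorem exists_finset_rat767 (m M : ℝ) (hm : 0 < m) (k : ℕ) (hk : k ≠ 0) :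
    ∃ Q : Finset ℚ, (∀ r ∈ Q, 0 < r) ∧
      ∀ N ∈ Set.Icc m M, ∃ r ∈ Q, 1 < N * (r : ℝ) ^ k ∧ N * (r : ℝ) ^ k < 2 := by
  classical
  have hcpt : IsCompact (Set.Icc m M) := isCompact_Icc
  let U : {r : ℚ // 0 < r} → Set ℝ := fun r => {N | 1 < N * ((r : ℚ) : ℝ) ^ k ∧ N * ((r : ℚ) : ℝ) ^ k < 2}
  have hUo : ∀ r, IsOpen (U r) := by
    intro r
    have h1 : IsOpen {N : ℝ | 1 < N * ((r : ℚ) : ℝ) ^ k} :=
      isOpen_lt continuous_const (continuous_id.mul continuous_const)
    have h2 : IsOpen {N : ℝ | N * ((r : ℚ) : ℝ) ^ k < 2} :=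
      isOpen_lt (continuous_id.mul continuous_const) continuous_const
    exact h1.inter h2
  have hcov : Set.Icc m M ⊆ ⋃ r, U r := by
    intro N hN
    have hNpos : 0 < N := lt_of_lt_of_le hm hN.1
    obtain ⟨r, hr, h1, h2⟩ := exists_rat_pow_between245 N hNpos k hk
    exact Set.mem_iUnion.mpr ⟨⟨r, hr⟩, h1, h2⟩
  obtain ⟨t, ht⟩ := hcpt.elim_finite_subcover U hUo hcov
  refine ⟨t.image Subtype.val, ?_, ?_⟩
  · intro r hr
    obtain ⟨r', -, rfl⟩ := Finset.mem_image.mp hr
    exact r'.2
  · intro N hN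
    obtain ⟨r, hr, hNr⟩ := Set.mem_iUnion₂.mp (ht hN)
    exact ⟨r.1, Finset.mem_image_of_mem _ hr, hNr⟩

/-- Counting: a sum of indicators over a countable family, every finite sub-sum of which is
bounded by `B`, is bounded by `B`. -/
theorem tsum_indicator_le767 {ι α : Type*} (S : ι → Set α) (a : α) (B : ℝ)
    (h : ∀ T : Finset ι, (∀ i ∈ T, a ∈ S i) → (T.card : ℝ) ≤ B) :
    ∑' i, (S i).indicator (fun _ => (1 : ENNReal)) a ≤ ENNReal.ofReal B := by
  classical
  rw [ENNReal.tsum_eq_iSup_sum]
  refine iSup_le fun s => ?_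
  have hs : ∑ i ∈ s, (S i).indicator (fun _ => (1 : ENNReal)) a
      = ((s.filter fun i => a ∈ S i).card : ENNReal) := by
    rw [Finset.card_eq_sum_ones, Finset.sum_filter]
    push_cast
    refine Finset.sum_congr rfl fun i _ => ?_
    by_cases hi : a ∈ S i
    · simp [hi]
    · simp [hi]
  rw [hs]
  have hB := h (s.filter fun i => a ∈ S i) (fun i hi => (Finset.mem_filter.mp hi).2)
  calc ((s.filter fun i => a ∈ S i).card : ENNReal)
      = ENNReal.ofReal ((s.filter fun i => a ∈ S i).card : ℝ) := by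
        rw [ENNReal.ofReal_natCast]
    _ ≤ ENNReal.ofReal B := ENNReal.ofReal_le_ofReal hB

end Fermat.Agent.LT.T2.H767

end
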