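import Mathlib
import Fermat.Agent.LT.T2.H767.IntTools

/-!
# Row LT, tower T2, sub-leaf T2.03c.2 = `LeafInt` (helper767): the integration step

OFF-MAIN.  `leafInt767 : LeafInt K` for every number field `K`: the count `CountC` gives the local
`L²` bound `H386.LocalL2`.  Nothing assumed.
-/

set_option autoImplicit false
set_option linter.unusedSectionVars false

open IsDedekindDomain NumberField MeasureTheory
open Fermat.Agent.LT.H556.A0
open Fermat.Agent.LT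

noncomputable section

namespace Fermat.Agent.LT.T2.H767

open Fermat.Agent.LT.T2 Fermat.Agent.LT.T2.H245

/-- **Covering lemma.**  `μ` a left and right invariant measure on a group `H`, `Γ` a countable
group acting by left translations through `ρ`, `f ≥ 0` measurable, left `Γ`-invariant and right
`z`-invariant; if every point of `x S z` has a `Γ`-translate in `D` and at most `Bt` elements of
`Γ` lie in `x Ω Ω⁻¹ x⁻¹`, then `∫_{Ω ∩ S} f(x h) dμ(h) ≤ Bt ∫_D f dμ`. -/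
theorem lintegral_cover_le767 {H Γ : Type*} [Group H] [Group Γ] [Countable Γ]
    [MeasurableSpace H] [MeasurableMul H] (μ : Measure H) [μ.IsMulLeftInvariant]
    [μ.IsMulRightInvariant] (ρ : Γ →* H) (D Ω S : Set H) (hD : MeasurableSet D)
    (hΩ : MeasurableSet Ω) (f : H → ENNReal) (hf : Measurable f)
    (hfl : ∀ (γ : Γ) (g : H), f (ρ γ * g) = f g) (x z : H) (hfz : ∀ g : H, f (g * z) = f g)
    (hS : ∀ h ∈ S, ∃ γ : Γ, ρ γ * (x * h * z) ∈ D) (Bt : ℝ)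
    (hcount : ∀ T : Finset Γ,
      (∀ δ ∈ T, ∃ a ∈ Ω, ∃ b ∈ Ω, ρ δ * x = x * (a * b⁻¹)) → (T.card : ℝ) ≤ Bt) :
    ∫⁻ h in Ω ∩ S, f (x * h) ∂μ ≤ ENNReal.ofReal Bt * ∫⁻ g in D, f g ∂μ := by
  classical
  let P : Γ → Set H := fun γ => {h | ρ γ * x * h * z ∈ D}
  have hPm : ∀ γ, MeasurableSet (P γ) := fun γ =>
    hD.preimage ((measurable_const_mul (ρ γ * x)).mul_const z)
  have hsub : Ω ∩ S ⊆ ⋃ γ, Ω ∩ P γ := by
    rintro h ⟨hΩh, hSh⟩
    obtain ⟨γ, hγ⟩ := hS h hSh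
    refine Set.mem_iUnion.2 ⟨γ, hΩh, ?_⟩
    show ρ γ * x * h * z ∈ D
    have : ρ γ * x * h * z = ρ γ * (x * h * z) := by group
    rw [this]
    exact hγ
  let Q : Γ → Set H := fun γ => {g | x⁻¹ * (ρ γ)⁻¹ * g * z⁻¹ ∈ Ω}
  let u : Γ → H → ENNReal :=
    fun γ g => D.indicator f g * (Q γ).indicator (fun _ => (1 : ENNReal)) g
  have hQm : ∀ γ, MeasurableSet (Q γ) := fun γ =>
    hΩ.preimage ((measurable_const_mul (x⁻¹ * (ρ γ)⁻¹)).mul_const z⁻¹)
  have hum : ∀ γ, Measurable (u γ) := fun γ =>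
    (hf.indicator hD).mul (measurable_const.indicator (hQm γ))
  have hterm : ∀ γ, ∫⁻ h in Ω ∩ P γ, f (x * h) ∂μ = ∫⁻ g, u γ g ∂μ := by
    intro γ
    rw [← lintegral_indicator (hΩ.inter (hPm γ))]
    have h1 : ∀ h, (Ω ∩ P γ).indicator (fun h => f (x * h)) h = u γ (ρ γ * x * h * z) := by
      intro h
      have hq : x⁻¹ * (ρ γ)⁻¹ * (ρ γ * x * h * z) * z⁻¹ = h := by group
      have hfv : f (ρ γ * x * h * z) = f (x * h) := by
        rw [hfz, mul_assoc, hfl]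
      have hQh : (ρ γ * x * h * z ∈ Q γ) ↔ h ∈ Ω := by
        show x⁻¹ * (ρ γ)⁻¹ * (ρ γ * x * h * z) * z⁻¹ ∈ Ω ↔ h ∈ Ω
        rw [hq]
      have hPh : (h ∈ P γ) ↔ ρ γ * x * h * z ∈ D := Iff.rfl
      show (Ω ∩ P γ).indicator (fun h => f (x * h)) h
        = D.indicator f (ρ γ * x * h * z)
          * (Q γ).indicator (fun _ => (1 : ENNReal)) (ρ γ * x * h * z)
      by_cases h1 : h ∈ Ω
      · by_cases h2 : ρ γ * x * h * z ∈ D
        · rw [Set.indicator_of_mem (Set.mem_inter h1 (hPh.2 h2)),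
            Set.indicator_of_mem h2, Set.indicator_of_mem (hQh.2 h1), mul_one, hfv]
        · rw [Set.indicator_of_notMem (fun hh : h ∈ Ω ∩ P γ => h2 (hPh.1 hh.2)),
            Set.indicator_of_notMem h2, zero_mul]
      · rw [Set.indicator_of_notMem (fun hh : h ∈ Ω ∩ P γ => h1 hh.1),
          Set.indicator_of_notMem (fun hh => h1 (hQh.1 hh)), mul_zero]
    rw [lintegral_congr h1]
    have h2 := lintegral_mul_right_eq_self (μ := μ) (fun h => u γ (ρ γ * x * h)) z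
    have h3 := lintegral_mul_left_eq_self (μ := μ) (u γ) (ρ γ * x)
    rw [← h3, ← h2]
    refine lintegral_congr fun h => ?_
    show u γ (ρ γ * x * h * z) = u γ (ρ γ * x * (h * z))
    rw [mul_assoc (ρ γ * x) h z]
  have hcnt : ∀ g, ∑' γ, (Q γ).indicator (fun _ => (1 : ENNReal)) g ≤ ENNReal.ofReal Bt := by
    intro g
    refine tsum_indicator_le767 Q g Bt fun T hT => ?_
    rcases T.eq_empty_or_nonempty with rfl | ⟨γ₁, hγ₁⟩
    · exact hcount ∅ (fun δ hδ => absurd hδ (Finset.notMem_empty δ))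
    · have hinj : Function.Injective (fun γ : Γ => γ⁻¹ * γ₁) := by
        intro a b hab
        exact inv_injective (mul_right_cancel hab)
      have hcard : (T.image fun γ => γ⁻¹ * γ₁).card = T.card :=
        Finset.card_image_of_injective T hinj
      rw [← hcard]
      refine hcount _ fun δ hδ => ?_
      obtain ⟨γ, hγ, rfl⟩ := Finset.mem_image.mp hδ
      refine ⟨x⁻¹ * (ρ γ)⁻¹ * g * z⁻¹, hT γ hγ, x⁻¹ * (ρ γ₁)⁻¹ * g * z⁻¹, hT γ₁ hγ₁, ?_⟩
      rw [map_mul, map_inv]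
      group
  calc ∫⁻ h in Ω ∩ S, f (x * h) ∂μ
      ≤ ∫⁻ h in ⋃ γ, Ω ∩ P γ, f (x * h) ∂μ := lintegral_mono_set hsub
    _ ≤ ∑' γ, ∫⁻ h in Ω ∩ P γ, f (x * h) ∂μ := lintegral_iUnion_le _ _
    _ = ∑' γ, ∫⁻ g, u γ g ∂μ := tsum_congr hterm
    _ = ∫⁻ g, ∑' γ, u γ g ∂μ := (lintegral_tsum fun γ => (hum γ).aemeasurable).symm
    _ ≤ ∫⁻ g, D.indicator (fun g => ENNReal.ofReal Bt * f g) g ∂μ := by
        refine lintegral_mono fun g => ?_
        show ∑' γ, D.indicator f g * (Q γ).indicator (fun _ => (1 : ENNReal)) g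
          ≤ D.indicator (fun g => ENNReal.ofReal Bt * f g) g
        rw [ENNReal.tsum_mul_left]
        by_cases hg : g ∈ D
        · rw [Set.indicator_of_mem hg, Set.indicator_of_mem hg, mul_comm]
          exact mul_le_mul_left (hcnt g) _
        · rw [Set.indicator_of_notMem hg, Set.indicator_of_notMem hg, zero_mul]
    _ = ∫⁻ g in D, ENNReal.ofReal Bt * f g ∂μ := lintegral_indicator hD _
    _ = ENNReal.ofReal Bt * ∫⁻ g in D, f g ∂μ := lintegral_const_mul _ hf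


variable {K : Type} [Field K] [NumberField K]

attribute [local instance] Fermat.Agent.LT.T2.borelG

/-- The set `Ω Ω⁻¹`. -/
def quotSet767 (Ω : Set (G K)) : Set (G K) :=
  (fun p : G K × G K => p.1 * p.2⁻¹) '' (Ω ×ˢ Ω)

theorem isCompact_quotSet767 {Ω : Set (G K)} (hΩ : IsCompact Ω) : IsCompact (quotSet767 Ω) :=
  (hΩ.prod hΩ).image (continuous_fst.mul continuous_snd.inv)

/-- The square of the `L²`-norm is the integral of `‖ψ‖²` over the domain. -/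
theorem nsq_eq767 (F : Frame K) (ψ : G K → ℂ) :
    nsq F ψ = ∫ g in F.D, ‖ψ g‖ ^ 2 ∂F.μ := by
  unfold nsq pair
  have hreal : ∀ g, ψ g * (starRingEnd ℂ) (ψ g) = ((‖ψ g‖ ^ 2 : ℝ) : ℂ) := by
    intro g
    rw [Complex.mul_conj, Complex.normSq_eq_norm_sq]
  simp only [hreal]
  have h2 : ∫ g in F.D, (((‖ψ g‖ ^ 2 : ℝ)) : ℂ) ∂F.μ
      = ((∫ g in F.D, ‖ψ g‖ ^ 2 ∂F.μ : ℝ) : ℂ) := integral_ofReal
  rw [h2]
  exact Complex.ofReal_re _

theorem nsq_nonneg767 (F : Frame K) (ψ : G K → ℂ) : 0 ≤ nsq F ψ := by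
  rw [nsq_eq767]
  exact integral_nonneg fun g => by positivity

/-- The square of the `L²`-norm as a lower integral. -/
theorem lintegral_enorm_sq_eq_nsq767 (F : Frame K) {𝔫 : Ideal (𝓞 K)} {ψ : G K → ℂ}
    (hψ : IsAutFn 𝔫 ψ) :
    ∫⁻ g in F.D, ‖ψ g‖ₑ ^ 2 ∂F.μ = ENNReal.ofReal (nsq F ψ) := by
  have : BorelSpace (G K) := ⟨rfl⟩
  obtain ⟨C, hC⟩ := hψ.bdd
  have hcont : Continuous (fun g => ‖ψ g‖ ^ 2) := (continuous_norm.comp hψ.cont).pow 2
  have hint : IntegrableOn (fun g => ‖ψ g‖ ^ 2) F.D F.μ := by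
    refine Measure.integrableOn_of_bounded (M := C * C) F.fin.ne hcont.aestronglyMeasurable
      (Filter.Eventually.of_forall fun g => ?_)
    rw [Real.norm_eq_abs, abs_of_nonneg (by positivity), sq]
    exact mul_le_mul (hC g) (hC g) (norm_nonneg _) ((norm_nonneg _).trans (hC g))
  rw [nsq_eq767, ofReal_integral_eq_lintegral_ofReal hint
    (Filter.Eventually.of_forall fun g => by positivity)]
  refine lintegral_congr fun g => ?_
  rw [ENNReal.ofReal_pow (norm_nonneg _), ofReal_norm]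

/-- **T2.03c.2**: the count gives the local `L²` bound. -/
theorem leafInt767 (K : Type) [Field K] [NumberField K] : LeafInt K := by
  intro hT hCount 𝔫 _ F Ω hΩ
  classical
  obtain ⟨-, hlc, ht2, hsc⟩ := hT.locComp
  have : BorelSpace (G K) := ⟨rfl⟩
  have := hlc
  have := ht2
  have := hsc
  have := F.haar
  have : F.μ.IsMulRightInvariant := hT.unimod F.μ F.haar
  have hN := hT.adNorm
  have hH := hT.height
  have := countable_GL245 K
  rcases Ω.eq_empty_or_nonempty with rfl | hne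
  · refine ⟨0, 1, one_pos, fun ψ _ x t _ _ => ?_⟩
    simp
  -- bounds for the module on `Ω`
  obtain ⟨g₁, hg₁, hmin⟩ := hΩ.exists_isMinOn hne (continuous_detNorm245 hN).continuousOn
  obtain ⟨g₂, hg₂, hmax⟩ := hΩ.exists_isMaxOn hne (continuous_detNorm245 hN).continuousOn
  have hmpos : 0 < detNorm245 g₁ := detNorm245_pos hN g₁
  obtain ⟨w₀⟩ : Nonempty (InfinitePlace K) := inferInstance
  have hk : w₀.mult * 2 ≠ 0 := by
    have := w₀.mult_pos
    omega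
  obtain ⟨Q₀, hQpos, hQ⟩ :=
    exists_finset_rat767 (detNorm245 g₁) (2 * detNorm245 g₂) hmpos (w₀.mult * 2) hk
  obtain ⟨B, c, hc, hB⟩ := hCount (quotSet767 Ω) (isCompact_quotSet767 hΩ)
  have hΩm : MeasurableSet Ω := hΩ.measurableSet
  have hμΩ : F.μ Ω < ⊤ := hΩ.measure_lt_top
  refine ⟨Real.sqrt (Q₀.card * |B| * (F.μ Ω).toReal), max c 1, lt_max_of_lt_left hc, ?_⟩
  intro ψ hψ x t hx ht
  have htc : c ≤ t := le_trans (le_max_left _ _) ht
  have ht1 : 1 ≤ t := le_trans (le_max_right _ _) ht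
  have htpos : 0 < t := lt_of_lt_of_le one_pos ht1
  -- normalisation of `x`
  obtain ⟨r₀, hr₀, h1, h2⟩ := exists_rat_pow_between245 (detNorm245 x) (detNorm245_pos hN x)
    (w₀.mult * 2) hk
  have hx'N : detNorm245 (x * zScalar245 w₀ r₀ hr₀.ne')
      = detNorm245 x * (r₀ : ℝ) ^ (w₀.mult * 2) := detNorm_mul_zScalar767 hN w₀ r₀ hr₀ x
  have hx' : T1.HasHeight K (x * zScalar245 w₀ r₀ hr₀.ne') t := by
    rw [zScalar_comm767 w₀ r₀ hr₀.ne' x]
    exact hH.2.2.1 _ (isCentral_zScalar767 w₀ r₀ hr₀.ne') x t hx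
  have hψx : ∀ h, ψ (x * h) = ψ (x * zScalar245 w₀ r₀ hr₀.ne' * h) := by
    intro h
    have e : x * zScalar245 w₀ r₀ hr₀.ne' * h = x * h * zScalar245 w₀ r₀ hr₀.ne' := by
      rw [mul_assoc, ← zScalar_comm767 w₀ r₀ hr₀.ne' h, mul_assoc]
    rw [e, hψ.arch_scalar w₀ _ (isArchPosScalar_zScalar245 w₀ r₀ hr₀) (x * h)]
  generalize x * zScalar245 w₀ r₀ hr₀.ne' = x' at hx'N hx' hψx
  have hx'1 : 1 < detNorm245 x' := by rw [hx'N]; exact h1
  have hx'2 : detNorm245 x' < 2 := by rw [hx'N]; exact h2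
  -- the function
  let f : G K → ENNReal := fun g => ‖ψ g‖ₑ ^ 2
  have hfm : Measurable f := hψ.cont.measurable.enorm.pow_const 2
  have hfl : ∀ (γ : GL (Fin 2) K) (g : G K), f (T1.ratG K γ * g) = f g := by
    intro γ g
    show ‖ψ (T1.ratG K γ * g)‖ₑ ^ 2 = ‖ψ g‖ₑ ^ 2
    rw [show ψ (T1.ratG K γ * g) = ψ g from hψ.left_inv γ g]
  -- the count for `x'`
  have hBt := hB x' t hx' htc
  have hBt0 : 0 ≤ B * t := by
    have := hBt ∅ (fun δ hδ => absurd hδ (Finset.notMem_empty δ))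
    simpa using this
  have hB0 : 0 ≤ B := nonneg_of_mul_nonneg_left hBt0 htpos
  -- the bound for one rational scalar
  have hper : ∀ (r : ℚ) (hr : 0 < r),
      ∫⁻ h in Ω ∩ {h | x' * h * zScalar245 w₀ r hr.ne' ∈ T1.slab K}, f (x' * h) ∂F.μ
        ≤ ENNReal.ofReal (B * t) * ∫⁻ g in F.D, f g ∂F.μ := by
    intro r hr
    refine lintegral_cover_le767 F.μ (T1.ratG K) F.D Ω _ F.meas hΩm f hfm hfl x'
      (zScalar245 w₀ r hr.ne') ?_ ?_ (B * t) ?_
    · intro g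
      show ‖ψ (g * _)‖ₑ ^ 2 = ‖ψ g‖ₑ ^ 2
      rw [hψ.arch_scalar w₀ _ (isArchPosScalar_zScalar245 w₀ r hr) g]
    · intro h hh
      obtain ⟨γ, hγ, -⟩ := F.strict _ hh
      exact ⟨γ, hγ⟩
    · intro T hT
      refine hBt T fun δ hδ => ?_
      obtain ⟨a, ha, b, hb, hab⟩ := hT δ hδ
      exact ⟨a * b⁻¹, ⟨(a, b), ⟨ha, hb⟩, rfl⟩, hab⟩
  -- the covering of `Ω`
  let A : {r : ℚ // r ∈ Q₀} → Set (G K) := fun i =>
    Ω ∩ {h | x' * h * zScalar245 w₀ i.1 (hQpos i.1 i.2).ne' ∈ T1.slab K}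
  have hcover : Ω ⊆ ⋃ i, A i := by
    intro h hh
    have hhm : detNorm245 g₁ ≤ detNorm245 h := hmin hh
    have hhM : detNorm245 h ≤ detNorm245 g₂ := hmax hh
    have hNval : detNorm245 (x' * h) = detNorm245 x' * detNorm245 h := detNorm245_mul hN x' h
    have hmem : detNorm245 (x' * h) ∈ Set.Icc (detNorm245 g₁) (2 * detNorm245 g₂) := by
      rw [hNval]
      have hhpos : 0 < detNorm245 h := detNorm245_pos hN h
      constructor
      · nlinarith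
      · nlinarith
    obtain ⟨r, hr, hr1, hr2⟩ := hQ _ hmem
    refine Set.mem_iUnion.2 ⟨⟨r, hr⟩, hh, ?_⟩
    show x' * h * zScalar245 w₀ r (hQpos r hr).ne' ∈ T1.slab K
    apply openSlab245_subset_slab
    show 1 < detNorm245 (x' * h * zScalar245 w₀ r (hQpos r hr).ne') ∧
      detNorm245 (x' * h * zScalar245 w₀ r (hQpos r hr).ne') < 2
    rw [detNorm_mul_zScalar767 hN w₀ r (hQpos r hr) (x' * h)]
    exact ⟨hr1, hr2⟩
  have hmain : ∫⁻ h in Ω, f (x' * h) ∂F.μ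
      ≤ ENNReal.ofReal (Q₀.card * (B * t) * nsq F ψ) := by
    calc ∫⁻ h in Ω, f (x' * h) ∂F.μ
        ≤ ∫⁻ h in ⋃ i, A i, f (x' * h) ∂F.μ := lintegral_mono_set hcover
      _ ≤ ∑' i, ∫⁻ h in A i, f (x' * h) ∂F.μ := lintegral_iUnion_le _ _
      _ ≤ ∑' _i : {r : ℚ // r ∈ Q₀}, ENNReal.ofReal (B * t) * ∫⁻ g in F.D, f g ∂F.μ :=
          ENNReal.tsum_le_tsum fun i => hper i.1 (hQpos i.1 i.2)
      _ = ENNReal.ofReal (Q₀.card * (B * t) * nsq F ψ) := by
          rw [tsum_fintype, Finset.sum_const, Finset.card_univ, Fintype.card_coe,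
            lintegral_enorm_sq_eq_nsq767 F hψ, nsmul_eq_mul,
            ← ENNReal.ofReal_mul hBt0, ← ENNReal.ofReal_natCast,
            ← ENNReal.ofReal_mul (Nat.cast_nonneg _)]
          congr 1
          ring
  -- Cauchy--Schwarz
  have hnn : 0 ≤ nsq F ψ := nsq_nonneg767 F ψ
  have hV : F.μ Ω = ENNReal.ofReal (F.μ Ω).toReal := (ENNReal.ofReal_toReal hμΩ.ne).symm
  have hV0 : 0 ≤ (F.μ Ω).toReal := ENNReal.toReal_nonneg
  have hcard0 : (0 : ℝ) ≤ (Q₀.card : ℝ) := Nat.cast_nonneg _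
  have hR0 : 0 ≤ (Q₀.card : ℝ) * (B * t) * nsq F ψ :=
    mul_nonneg (mul_nonneg hcard0 hBt0) hnn
  have hLHS : ∫ h in Ω, ‖ψ (x * h)‖ ∂F.μ = (∫⁻ h in Ω, ‖ψ (x' * h)‖ₑ ∂F.μ).toReal := by
    have hcx : Continuous (fun h => ψ (x * h)) :=
      hψ.cont.comp (continuous_const.mul continuous_id)
    have e := integral_norm_eq_lintegral_enorm (f := fun h => ψ (x * h))
      (μ := F.μ.restrict Ω) hcx.aestronglyMeasurable
    rw [e]
    simp_rw [hψx]
  rw [hLHS]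
  refine ENNReal.toReal_le_of_le_ofReal
    (mul_nonneg (mul_nonneg (Real.sqrt_nonneg _) htpos.le) (Real.sqrt_nonneg _)) ?_
  have hcx' : Continuous (fun h => ψ (x' * h)) :=
    hψ.cont.comp (continuous_const.mul continuous_id)
  have hCS := ENNReal.lintegral_mul_le_Lp_mul_Lq (F.μ.restrict Ω) Real.HolderConjugate.two_two
    (f := fun h => ‖ψ (x' * h)‖ₑ) (g := fun _ => (1 : ENNReal))
    hcx'.measurable.enorm.aemeasurable aemeasurable_const
  have hCS' : ∫⁻ h in Ω, ‖ψ (x' * h)‖ₑ ∂F.μ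
      ≤ (∫⁻ h in Ω, f (x' * h) ∂F.μ) ^ ((1 : ℝ) / 2) * (F.μ Ω) ^ ((1 : ℝ) / 2) := by
    simpa [f] using hCS
  have e1 : Real.sqrt ((Q₀.card : ℝ) * (B * t) * nsq F ψ)
      = Real.sqrt ((Q₀.card : ℝ) * (B * t)) * Real.sqrt (nsq F ψ) :=
    Real.sqrt_mul (mul_nonneg hcard0 hBt0) _
  have e2 : Real.sqrt ((Q₀.card : ℝ) * (B * t)) * Real.sqrt (F.μ Ω).toReal
      = Real.sqrt ((Q₀.card : ℝ) * |B| * (F.μ Ω).toReal) * Real.sqrt t := by
    rw [← Real.sqrt_mul (mul_nonneg hcard0 hBt0),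
      ← Real.sqrt_mul (mul_nonneg (mul_nonneg hcard0 (abs_nonneg B)) hV0), abs_of_nonneg hB0]
    congr 1
    ring
  have e3 : Real.sqrt t ≤ t := by
    rw [Real.sqrt_le_iff]
    exact ⟨htpos.le, by nlinarith⟩
  have hreal : Real.sqrt ((Q₀.card : ℝ) * (B * t) * nsq F ψ) * Real.sqrt (F.μ Ω).toReal
      ≤ Real.sqrt ((Q₀.card : ℝ) * |B| * (F.μ Ω).toReal) * t * Real.sqrt (nsq F ψ) := by
    calc Real.sqrt ((Q₀.card : ℝ) * (B * t) * nsq F ψ) * Real.sqrt (F.μ Ω).toReal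
        = (Real.sqrt ((Q₀.card : ℝ) * (B * t)) * Real.sqrt (F.μ Ω).toReal)
            * Real.sqrt (nsq F ψ) := by rw [e1]; ring
      _ = Real.sqrt ((Q₀.card : ℝ) * |B| * (F.μ Ω).toReal) * Real.sqrt t
            * Real.sqrt (nsq F ψ) := by rw [e2]
      _ ≤ Real.sqrt ((Q₀.card : ℝ) * |B| * (F.μ Ω).toReal) * t * Real.sqrt (nsq F ψ) :=
          mul_le_mul_of_nonneg_right
            (mul_le_mul_of_nonneg_left e3 (Real.sqrt_nonneg _)) (Real.sqrt_nonneg _)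
  calc ∫⁻ h in Ω, ‖ψ (x' * h)‖ₑ ∂F.μ
      ≤ (∫⁻ h in Ω, f (x' * h) ∂F.μ) ^ ((1 : ℝ) / 2) * (F.μ Ω) ^ ((1 : ℝ) / 2) := hCS'
    _ ≤ (ENNReal.ofReal ((Q₀.card : ℝ) * (B * t) * nsq F ψ)) ^ ((1 : ℝ) / 2)
          * (ENNReal.ofReal (F.μ Ω).toReal) ^ ((1 : ℝ) / 2) := by
        rw [← hV]
        exact mul_le_mul_left (ENNReal.rpow_le_rpow hmain (by norm_num)) _
    _ = ENNReal.ofReal (Real.sqrt ((Q₀.card : ℝ) * (B * t) * nsq F ψ)
          * Real.sqrt (F.μ Ω).toReal) := by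
        rw [ENNReal.ofReal_rpow_of_nonneg hR0 (by norm_num),
          ENNReal.ofReal_rpow_of_nonneg hV0 (by norm_num),
          ← ENNReal.ofReal_mul (Real.rpow_nonneg hR0 _), ← Real.sqrt_eq_rpow,
          ← Real.sqrt_eq_rpow]
    _ ≤ ENNReal.ofReal (Real.sqrt ((Q₀.card : ℝ) * |B| * (F.μ Ω).toReal) * t
          * Real.sqrt (nsq F ψ)) := ENNReal.ofReal_le_ofReal hreal

end Fermat.Agent.LT.T2.H767

end
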