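import Mathlib
import Fermat.Agent.LT.T2.H767.Int
import Fermat.Agent.LT.T2.H868.Count

/-!
# Row LT, tower T2, leaf T2.03c = `LeafLocalL2` (helper767): CLOSED

OFF-MAIN.  `leafLocalL2_767 K : H386.LeafLocalL2 K` for every number field `K`, verbatim against
`LT/T2/H386/GPSSpec.lean` (fb5aa9e8): the count `leafCount868` (helper868,
`LT/T2/H868/Count.lean`, byte-identical copy of origin/helper868@d29b270f6) and the integration
step `leafInt767` (`LT/T2/H767/Int.lean`).  Nothing assumed.
-/

set_option autoImplicit false

open IsDedekindDomain NumberField MeasureTheory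

noncomputable section

namespace Fermat.Agent.LT.T2.H767

/-- **T2.03c** `LeafLocalL2`: the local `L²` bound from T1. -/
theorem leafLocalL2_767 (K : Type) [Field K] [NumberField K] : H386.LeafLocalL2 K :=
  leafLocalL2_of_leaves (H868.leafCount868 K) (leafInt767 K)

/-- Type check against the frozen Prop of helper386. -/
example (K : Type) [Field K] [NumberField K] :
    T1.T1Out K → ∀ 𝔫 : Ideal (𝓞 K), 𝔫 ≠ ⊥ → H386.LocalL2 K 𝔫 := leafLocalL2_767 K

end Fermat.Agent.LT.T2.H767

end
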